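import Mathlib

/-!
# P-S41: restriction and corestriction (transfer) of additive characters along an injective
homomorphism with finite index range

`resAlong j A φ = φ ∘ j` and `corAlong j hj A ψ` = Mathlib's `MonoidHom.transfer` of
`ψ ∘ (MonoidHom.ofInjective hj).symm`, with the `Additive`/`Multiplicative` bookkeeping hidden.
The user-facing formula is `corAlong_apply_of_reps`.
-/

set_option autoImplicit false

namespace Fermat.Agent.S41

section General

variable {G' G : Type*} [Group G'] [Group G]

/-- Restriction of additive characters along `j : G' →* G`. -/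
def resAlong (j : G' →* G) (A : Type*) [AddCommGroup A] :
    (Additive G →+ A) →+ (Additive G' →+ A) where
  toFun φ := φ.comp (MonoidHom.toAdditive j)
  map_zero' := rfl
  map_add' _ _ := rfl

@[simp] theorem resAlong_apply (j : G' →* G) (A : Type*) [AddCommGroup A]
    (φ : Additive G →+ A) (g : G') :
    resAlong j A φ (Additive.ofMul g) = φ (Additive.ofMul (j g)) := rfl

/-- The character of the subgroup `j.range` corresponding to `ψ`. -/
noncomputable def rangeChar (j : G' →* G) (hj : Function.Injective j) (A : Type*) [AddCommGroup A]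
    (ψ : Additive G' →+ A) : j.range →* Multiplicative A :=
  (AddMonoidHom.toMultiplicativeRight ψ).comp (MonoidHom.ofInjective hj).symm.toMonoidHom

theorem rangeChar_apply (j : G' →* G) (hj : Function.Injective j) (A : Type*) [AddCommGroup A]
    (ψ : Additive G' →+ A) (g : G') (h : j g ∈ j.range) :
    rangeChar j hj A ψ ⟨j g, h⟩ = Multiplicative.ofAdd (ψ (Additive.ofMul g)) := by
  have : (MonoidHom.ofInjective hj).symm ⟨j g, h⟩ = g := by
    apply (MonoidHom.ofInjective hj).injective
    rw [MulEquiv.apply_symm_apply]
    exact Subtype.ext (MonoidHom.ofInjective_apply hj).symm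
  show AddMonoidHom.toMultiplicativeRight ψ ((MonoidHom.ofInjective hj).symm ⟨j g, h⟩) = _
  rw [this]
  rfl

/-- Corestriction (transfer) of additive characters along an injective `j : G' →* G` whose range
has finite index. -/
noncomputable def corAlong (j : G' →* G) (hj : Function.Injective j) [j.range.FiniteIndex]
    (A : Type*) [AddCommGroup A] : (Additive G' →+ A) →+ (Additive G →+ A) where
  toFun ψ := MonoidHom.toAdditiveLeft (MonoidHom.transfer (rangeChar j hj A ψ))
  map_zero' := by
    apply AddMonoidHom.ext
    intro g
    have h1 : rangeChar j hj A (0 : Additive G' →+ A) = 1 := by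
      apply MonoidHom.ext
      intro x
      simp only [rangeChar, MonoidHom.comp_apply, MonoidHom.one_apply]
      rfl
    show Multiplicative.toAdd (MonoidHom.transfer (rangeChar j hj A 0) (Additive.toMul g)) = 0
    rw [h1]
    rw [MonoidHom.transfer_def (1 : j.range →* Multiplicative A) default]
    simp [Subgroup.leftTransversals.diff]
  map_add' ψ₁ ψ₂ := by
    apply AddMonoidHom.ext
    intro g
    have h1 : rangeChar j hj A (ψ₁ + ψ₂) = rangeChar j hj A ψ₁ * rangeChar j hj A ψ₂ := by
      apply MonoidHom.ext
      intro x
      simp only [rangeChar, MonoidHom.comp_apply, MonoidHom.mul_apply]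
      rfl
    show Multiplicative.toAdd (MonoidHom.transfer (rangeChar j hj A (ψ₁ + ψ₂)) (Additive.toMul g))
      = Multiplicative.toAdd (MonoidHom.transfer (rangeChar j hj A ψ₁) (Additive.toMul g))
        + Multiplicative.toAdd (MonoidHom.transfer (rangeChar j hj A ψ₂) (Additive.toMul g))
    rw [h1, ← toAdd_mul]
    congr 1
    rw [MonoidHom.transfer_def _ default, MonoidHom.transfer_def _ default,
      MonoidHom.transfer_def _ default]
    simp only [Subgroup.leftTransversals.diff, MonoidHom.mul_apply]
    exact Finset.prod_mul_distrib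

theorem corAlong_apply (j : G' →* G) (hj : Function.Injective j) [j.range.FiniteIndex]
    (A : Type*) [AddCommGroup A] (ψ : Additive G' →+ A) (g : G) :
    corAlong j hj A ψ (Additive.ofMul g)
      = Multiplicative.toAdd (MonoidHom.transfer (rangeChar j hj A ψ) g) := rfl

open Subgroup Subgroup.leftTransversals MulAction in
/-- **Explicit formula for the corestriction.**  If `r : ι → G` is a system of representatives of
`G ⧸ j.range` and `g * r i = r (σ i) * j (h i)` for all `i`, then
`(corAlong j ψ) g = ∑ i, ψ (h i)`. -/
theorem corAlong_apply_of_reps (j : G' →* G) (hj : Function.Injective j) [j.range.FiniteIndex]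
    (A : Type*) [AddCommGroup A] (ψ : Additive G' →+ A)
    {ι : Type*} [Fintype ι] (r : ι → G)
    (hr : Function.Bijective (fun i => (r i : G ⧸ j.range)))
    (g : G) (σ : ι → ι) (h : ι → G') (hg : ∀ i, g * r i = r (σ i) * j (h i)) :
    corAlong j hj A ψ (Additive.ofMul g) = ∑ i, ψ (Additive.ofMul (h i)) := by
  classical
  let e : ι ≃ G ⧸ j.range := Equiv.ofBijective _ hr
  let f : G ⧸ j.range → G := fun q => r (e.symm q)
  have hf : ∀ q, (f q : G ⧸ j.range) = q := fun q => e.apply_symm_apply q
  let T : j.range.LeftTransversal := ⟨Set.range f, isComplement_range_left hf⟩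
  have hT : ∀ q, ((T.2.leftQuotientEquiv q : G)) = f q := fun q =>
    IsComplement.leftQuotientEquiv_apply hf q
  -- the action of `g` on cosets
  have hσ : ∀ i, g • e i = e (σ i) := by
    intro i
    show g • (r i : G ⧸ j.range) = (r (σ i) : G ⧸ j.range)
    rw [← QuotientGroup.mk_mul_of_mem (r (σ i)) (⟨h i, rfl⟩ : j (h i) ∈ j.range), ← hg i]
    rfl
  have hσinj : Function.Injective σ := by
    intro a b hab
    apply e.injective
    have := hσ a
    rw [hab, ← hσ b] at this
    exact smul_left_cancel g this
  have hσbij : Function.Bijective σ := Finite.injective_iff_bijective.mp hσinj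
  let σe : ι ≃ ι := Equiv.ofBijective σ hσbij
  rw [corAlong_apply, MonoidHom.transfer_def _ T]
  letI := j.range.fintypeQuotientOfFiniteIndex
  unfold diff
  rw [toAdd_prod]
  rw [← Equiv.sum_comp (σe.trans e)]
  refine Finset.sum_congr rfl (fun i _ => ?_)
  have h1 : ((T.2.leftQuotientEquiv ((σe.trans e) i) : G)) = r (σ i) := by
    rw [hT]
    show r (e.symm (e (σ i))) = _
    rw [Equiv.symm_apply_apply]
  have h2 : (((g • T).2.leftQuotientEquiv ((σe.trans e) i) : G)) = g * r i := by
    rw [smul_apply_eq_smul_apply_inv_smul, hT]
    show g • f (g⁻¹ • e (σ i)) = _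
    rw [← hσ i, inv_smul_smul]
    show g • r (e.symm (e i)) = _
    rw [Equiv.symm_apply_apply]
    rfl
  have h3 : ((T.2.leftQuotientEquiv ((σe.trans e) i) : G))⁻¹
      * (((g • T).2.leftQuotientEquiv ((σe.trans e) i) : G)) = j (h i) := by
    rw [h1, h2, hg i, inv_mul_cancel_left]
  have h4 := rangeChar_apply j hj A ψ (h i) ⟨h i, rfl⟩
  rw [← toAdd_ofAdd (ψ (Additive.ofMul (h i))), ← h4]
  congr 2
  exact Subtype.ext h3

end General

end Fermat.Agent.S41
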