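import Mathlib
import Fermat.Agent.S41.Transfer

/-!
# P-S41: the two degeneracy maps `Γ₀(N q) → Γ₀(N)` and the induced maps on additive characters

* `incl N q : Γ₀(N q) →* Γ₀(N)` is the inclusion,
* `degConj N q : Γ₀(N q) →* Γ₀(N)`, `[[a, b], [c, d]] ↦ [[a, q b], [c / q, d]]` is conjugation by
  `diag(q, 1)`.

`res₁, res₂ : Hom(Γ₀(N), A) → Hom(Γ₀(N q), A)` are the pull-backs and
`cor₁, cor₂ : Hom(Γ₀(N q), A) → Hom(Γ₀(N), A)` the transfers (see `Transfer.lean`).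
-/

set_option autoImplicit false

namespace Fermat.Agent.S41

open CongruenceSubgroup Matrix
open scoped MatrixGroups

section Maps

variable (N q : ℕ)

theorem Gamma0_mul_le : Gamma0 (N * q) ≤ Gamma0 N := by
  intro A hA
  rw [Gamma0_mem] at hA ⊢
  have h1 : ((N * q : ℕ) : ℤ) ∣ (A 1 0 : ℤ) := (ZMod.intCast_zmod_eq_zero_iff_dvd _ _).mp hA
  exact (ZMod.intCast_zmod_eq_zero_iff_dvd _ _).mpr
    (dvd_trans (by exact_mod_cast Dvd.intro q rfl) h1)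

/-- The inclusion `Γ₀(N q) → Γ₀(N)`. -/
def incl : Gamma0 (N * q) →* Gamma0 N := Subgroup.inclusion (Gamma0_mul_le N q)

@[simp] theorem incl_coe (γ : Gamma0 (N * q)) : ((incl N q γ : Gamma0 N) : SL(2, ℤ)) = γ := rfl

theorem incl_injective : Function.Injective (incl N q) :=
  Subgroup.inclusion_injective _

theorem dvd_of_mem_Gamma0_mul {A : SL(2, ℤ)} (hA : A ∈ Gamma0 (N * q)) :
    (N : ℤ) * (q : ℤ) ∣ (A 1 0 : ℤ) := by
  rw [Gamma0_mem] at hA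
  have := (ZMod.intCast_zmod_eq_zero_iff_dvd _ _).mp hA
  exact_mod_cast this

theorem mul_ediv_of_mem_Gamma0_mul {A : SL(2, ℤ)} (hA : A ∈ Gamma0 (N * q)) :
    (q : ℤ) * ((A 1 0 : ℤ) / (q : ℤ)) = A 1 0 :=
  Int.mul_ediv_cancel' (dvd_trans (Dvd.intro_left _ rfl) (dvd_of_mem_Gamma0_mul N q hA))

theorem dvd_ediv_of_mem_Gamma0_mul {A : SL(2, ℤ)} (hA : A ∈ Gamma0 (N * q)) :
    (N : ℤ) ∣ (A 1 0 : ℤ) / (q : ℤ) := by
  obtain ⟨c, hc⟩ := dvd_of_mem_Gamma0_mul N q hA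
  by_cases hq : (q : ℤ) = 0
  · rw [hq, Int.ediv_zero]
    exact dvd_zero _
  · rw [hc, show (N : ℤ) * q * c = q * (N * c) by ring, Int.mul_ediv_cancel_left _ hq]
    exact Dvd.intro _ rfl

/-- The matrix `[[a, q b], [c / q, d]]`. -/
def degMat (A : Matrix (Fin 2) (Fin 2) ℤ) : Matrix (Fin 2) (Fin 2) ℤ :=
  !![A 0 0, (q : ℤ) * A 0 1; A 1 0 / (q : ℤ), A 1 1]

theorem degMat_det {A : SL(2, ℤ)} (hA : A ∈ Gamma0 (N * q)) :
    (degMat q (A : Matrix (Fin 2) (Fin 2) ℤ)).det = 1 := by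
  have h := mul_ediv_of_mem_Gamma0_mul N q hA
  have hdet := A.det_coe
  rw [Matrix.det_fin_two] at hdet
  rw [degMat, Matrix.det_fin_two_of]
  calc (A 0 0 : ℤ) * A 1 1 - (q : ℤ) * A 0 1 * (A 1 0 / (q : ℤ))
      = A 0 0 * A 1 1 - A 0 1 * ((q : ℤ) * (A 1 0 / (q : ℤ))) := by ring
    _ = 1 := by rw [h]; exact hdet

/-- Conjugation by `diag(q, 1)` as a map `Γ₀(N q) → SL(2, ℤ)`. -/
def degSL (γ : Gamma0 (N * q)) : SL(2, ℤ) :=
  ⟨degMat q ((γ : SL(2, ℤ)) : Matrix (Fin 2) (Fin 2) ℤ), degMat_det N q γ.2⟩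

@[simp] theorem degSL_zero_zero (γ : Gamma0 (N * q)) :
    (degSL N q γ) 0 0 = (γ : SL(2, ℤ)) 0 0 := by simp [degSL, degMat]

@[simp] theorem degSL_zero_one (γ : Gamma0 (N * q)) :
    (degSL N q γ) 0 1 = (q : ℤ) * (γ : SL(2, ℤ)) 0 1 := by simp [degSL, degMat]

@[simp] theorem degSL_one_zero (γ : Gamma0 (N * q)) :
    (degSL N q γ) 1 0 = (γ : SL(2, ℤ)) 1 0 / (q : ℤ) := by simp [degSL, degMat]

@[simp] theorem degSL_one_one (γ : Gamma0 (N * q)) :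
    (degSL N q γ) 1 1 = (γ : SL(2, ℤ)) 1 1 := by simp [degSL, degMat]

theorem q_mul_degSL_one_zero (γ : Gamma0 (N * q)) :
    (q : ℤ) * (degSL N q γ) 1 0 = (γ : SL(2, ℤ)) 1 0 := by
  rw [degSL_one_zero]
  exact mul_ediv_of_mem_Gamma0_mul N q γ.2

theorem degSL_mem (γ : Gamma0 (N * q)) : degSL N q γ ∈ Gamma0 N := by
  rw [Gamma0_mem, degSL_one_zero]
  exact (ZMod.intCast_zmod_eq_zero_iff_dvd _ _).mpr (dvd_ediv_of_mem_Gamma0_mul N q γ.2)

variable [NeZero q]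

theorem degSL_mul (γ γ' : Gamma0 (N * q)) :
    degSL N q (γ * γ') = degSL N q γ * degSL N q γ' := by
  have hq : (q : ℤ) ≠ 0 := by exact_mod_cast NeZero.ne q
  have h1 := q_mul_degSL_one_zero N q γ
  have h2 := q_mul_degSL_one_zero N q γ'
  have h3 := q_mul_degSL_one_zero N q (γ * γ')
  have hmul : ((γ * γ' : Gamma0 (N * q)) : SL(2, ℤ)) = (γ : SL(2, ℤ)) * (γ' : SL(2, ℤ)) := rfl
  have e00 : (degSL N q (γ * γ')) 0 0
      = (γ : SL(2, ℤ)) 0 0 * (γ' : SL(2, ℤ)) 0 0 + (γ : SL(2, ℤ)) 0 1 * (γ' : SL(2, ℤ)) 1 0 := by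
    rw [degSL_zero_zero, hmul, Matrix.SpecialLinearGroup.coe_mul, Matrix.mul_apply,
      Fin.sum_univ_two]
  have e01 : (degSL N q (γ * γ')) 0 1
      = (q : ℤ) * ((γ : SL(2, ℤ)) 0 0 * (γ' : SL(2, ℤ)) 0 1
        + (γ : SL(2, ℤ)) 0 1 * (γ' : SL(2, ℤ)) 1 1) := by
    rw [degSL_zero_one, hmul, Matrix.SpecialLinearGroup.coe_mul, Matrix.mul_apply,
      Fin.sum_univ_two]
  have e10 : (q : ℤ) * (degSL N q (γ * γ')) 1 0
      = (γ : SL(2, ℤ)) 1 0 * (γ' : SL(2, ℤ)) 0 0 + (γ : SL(2, ℤ)) 1 1 * (γ' : SL(2, ℤ)) 1 0 := by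
    rw [h3, hmul, Matrix.SpecialLinearGroup.coe_mul, Matrix.mul_apply, Fin.sum_univ_two]
  have e11 : (degSL N q (γ * γ')) 1 1
      = (γ : SL(2, ℤ)) 1 0 * (γ' : SL(2, ℤ)) 0 1 + (γ : SL(2, ℤ)) 1 1 * (γ' : SL(2, ℤ)) 1 1 := by
    rw [degSL_one_one, hmul, Matrix.SpecialLinearGroup.coe_mul, Matrix.mul_apply,
      Fin.sum_univ_two]
  ext i j
  fin_cases i <;> fin_cases j
  · show (degSL N q (γ * γ')) 0 0 = (degSL N q γ * degSL N q γ') 0 0
    rw [Matrix.SpecialLinearGroup.coe_mul, Matrix.mul_apply, Fin.sum_univ_two, e00,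
      degSL_zero_zero, degSL_zero_zero, degSL_zero_one]
    linear_combination (-((γ : SL(2, ℤ)) 0 1)) * h2
  · show (degSL N q (γ * γ')) 0 1 = (degSL N q γ * degSL N q γ') 0 1
    rw [Matrix.SpecialLinearGroup.coe_mul, Matrix.mul_apply, Fin.sum_univ_two, e01,
      degSL_zero_zero, degSL_zero_one, degSL_zero_one, degSL_one_one]
    ring
  · show (degSL N q (γ * γ')) 1 0 = (degSL N q γ * degSL N q γ') 1 0
    apply mul_left_cancel₀ hq
    rw [e10, Matrix.SpecialLinearGroup.coe_mul, Matrix.mul_apply, Fin.sum_univ_two,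
      degSL_zero_zero, degSL_one_one]
    linear_combination (-((γ' : SL(2, ℤ)) 0 0)) * h1 + (-((γ : SL(2, ℤ)) 1 1)) * h2
  · show (degSL N q (γ * γ')) 1 1 = (degSL N q γ * degSL N q γ') 1 1
    rw [Matrix.SpecialLinearGroup.coe_mul, Matrix.mul_apply, Fin.sum_univ_two, e11,
      degSL_zero_one, degSL_one_one, degSL_one_one]
    linear_combination (-((γ' : SL(2, ℤ)) 0 1)) * h1

omit [NeZero q] in
theorem degSL_one : degSL N q 1 = 1 := by
  ext i j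
  fin_cases i <;> fin_cases j
  · show (degSL N q 1) 0 0 = (1 : SL(2, ℤ)) 0 0
    rw [degSL_zero_zero]; rfl
  · show (degSL N q 1) 0 1 = (1 : SL(2, ℤ)) 0 1
    rw [degSL_zero_one]; simp
  · show (degSL N q 1) 1 0 = (1 : SL(2, ℤ)) 1 0
    rw [degSL_one_zero]; simp
  · show (degSL N q 1) 1 1 = (1 : SL(2, ℤ)) 1 1
    rw [degSL_one_one]; rfl

/-- Conjugation by `diag(q, 1)`: `[[a, b], [c, d]] ↦ [[a, q b], [c / q, d]]`, as a homomorphism
`Γ₀(N q) → Γ₀(N)`. -/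
def degConj : Gamma0 (N * q) →* Gamma0 N where
  toFun γ := ⟨degSL N q γ, degSL_mem N q γ⟩
  map_one' := Subtype.ext (degSL_one N q)
  map_mul' γ γ' := Subtype.ext (degSL_mul N q γ γ')

@[simp] theorem degConj_coe (γ : Gamma0 (N * q)) :
    ((degConj N q γ : Gamma0 N) : SL(2, ℤ)) = degSL N q γ := rfl

theorem degConj_injective : Function.Injective (degConj N q) := by
  intro γ γ' h
  have hq : (q : ℤ) ≠ 0 := by exact_mod_cast NeZero.ne q
  have h' : degSL N q γ = degSL N q γ' := congrArg (fun x : Gamma0 N => (x : SL(2, ℤ))) h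
  apply Subtype.ext
  ext i j
  fin_cases i <;> fin_cases j
  · show (γ : SL(2, ℤ)) 0 0 = (γ' : SL(2, ℤ)) 0 0
    rw [← degSL_zero_zero, ← degSL_zero_zero, h']
  · show (γ : SL(2, ℤ)) 0 1 = (γ' : SL(2, ℤ)) 0 1
    apply mul_left_cancel₀ hq
    rw [← degSL_zero_one, ← degSL_zero_one, h']
  · show (γ : SL(2, ℤ)) 1 0 = (γ' : SL(2, ℤ)) 1 0
    rw [← q_mul_degSL_one_zero, ← q_mul_degSL_one_zero N q γ', h']
  · show (γ : SL(2, ℤ)) 1 1 = (γ' : SL(2, ℤ)) 1 1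
    rw [← degSL_one_one, ← degSL_one_one, h']

instance incl_range_finiteIndex [NeZero N] : (incl N q).range.FiniteIndex := by
  haveI : NeZero (N * q) := ⟨Nat.mul_ne_zero (NeZero.ne N) (NeZero.ne q)⟩
  rw [incl, Subgroup.inclusion_range]
  infer_instance

/-- The range of `degConj` contains `Γ₀(N) ∩ Γ(N q)`. -/
theorem mem_range_degConj_of_mem_Gamma (γ : Gamma0 N) (h : (γ : SL(2, ℤ)) ∈ Gamma (N * q)) :
    γ ∈ (degConj N q).range := by
  have hq : (q : ℤ) ≠ 0 := by exact_mod_cast NeZero.ne q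
  rw [Gamma_mem] at h
  obtain ⟨-, h01, h10, -⟩ := h
  have d01 : ((N * q : ℕ) : ℤ) ∣ (γ : SL(2, ℤ)) 0 1 :=
    (ZMod.intCast_zmod_eq_zero_iff_dvd _ _).mp h01
  have d10 : ((N * q : ℕ) : ℤ) ∣ (γ : SL(2, ℤ)) 1 0 :=
    (ZMod.intCast_zmod_eq_zero_iff_dvd _ _).mp h10
  have d01' : (q : ℤ) ∣ (γ : SL(2, ℤ)) 0 1 := dvd_trans (by push_cast; exact Dvd.intro_left _ rfl) d01
  obtain ⟨b', hb'⟩ := d01'
  -- the preimage `[[a, b / q], [q c, d]]`
  have hdet := (γ : SL(2, ℤ)).det_coe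
  rw [Matrix.det_fin_two] at hdet
  let M : Matrix (Fin 2) (Fin 2) ℤ :=
    !![(γ : SL(2, ℤ)) 0 0, b'; (q : ℤ) * (γ : SL(2, ℤ)) 1 0, (γ : SL(2, ℤ)) 1 1]
  have hM : M.det = 1 := by
    rw [Matrix.det_fin_two_of]
    rw [hb'] at hdet
    linear_combination hdet
  let δ : SL(2, ℤ) := ⟨M, hM⟩
  have hδ : δ ∈ Gamma0 (N * q) := by
    rw [Gamma0_mem]
    show (((M 1 0 : ℤ)) : ZMod (N * q)) = 0
    have : M 1 0 = (q : ℤ) * (γ : SL(2, ℤ)) 1 0 := by simp [M]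
    rw [this]
    exact (ZMod.intCast_zmod_eq_zero_iff_dvd _ _).mpr (Dvd.dvd.mul_left d10 _)
  refine ⟨⟨δ, hδ⟩, ?_⟩
  apply Subtype.ext
  rw [degConj_coe]
  ext i j
  fin_cases i <;> fin_cases j
  · show (degSL N q ⟨δ, hδ⟩) 0 0 = (γ : SL(2, ℤ)) 0 0
    rw [degSL_zero_zero]
    simp [δ, M]
  · show (degSL N q ⟨δ, hδ⟩) 0 1 = (γ : SL(2, ℤ)) 0 1
    rw [degSL_zero_one, hb']
    simp [δ, M]
  · show (degSL N q ⟨δ, hδ⟩) 1 0 = (γ : SL(2, ℤ)) 1 0
    apply mul_left_cancel₀ hq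
    rw [q_mul_degSL_one_zero]
    simp [δ, M]
  · show (degSL N q ⟨δ, hδ⟩) 1 1 = (γ : SL(2, ℤ)) 1 1
    rw [degSL_one_one]
    simp [δ, M]

instance degConj_range_finiteIndex [NeZero N] : (degConj N q).range.FiniteIndex := by
  haveI : NeZero (N * q) := ⟨Nat.mul_ne_zero (NeZero.ne N) (NeZero.ne q)⟩
  have hle : (Gamma (N * q)).subgroupOf (Gamma0 N) ≤ (degConj N q).range := by
    intro γ hγ
    exact mem_range_degConj_of_mem_Gamma N q γ (Subgroup.mem_subgroupOf.mp hγ)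
  exact Subgroup.finiteIndex_of_le hle

end Maps

section Chars

variable (N q : ℕ) (A : Type*) [AddCommGroup A]

/-- Pull-back of additive characters along the inclusion `Γ₀(N q) ≤ Γ₀(N)`. -/
def res₁ : (Additive (Gamma0 N) →+ A) →+ (Additive (Gamma0 (N * q)) →+ A) :=
  resAlong (incl N q) A

@[simp] theorem res₁_apply (φ : Additive (Gamma0 N) →+ A) (γ : Gamma0 (N * q)) :
    res₁ N q A φ (Additive.ofMul γ) = φ (Additive.ofMul (incl N q γ)) := rfl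

variable [NeZero q]

/-- Pull-back of additive characters along `degConj`. -/
def res₂ : (Additive (Gamma0 N) →+ A) →+ (Additive (Gamma0 (N * q)) →+ A) :=
  resAlong (degConj N q) A

@[simp] theorem res₂_apply (φ : Additive (Gamma0 N) →+ A) (γ : Gamma0 (N * q)) :
    res₂ N q A φ (Additive.ofMul γ) = φ (Additive.ofMul (degConj N q γ)) := rfl

/-- `α (φ₁, φ₂) = res₁ φ₁ + res₂ φ₂`. -/
def alpha : (Additive (Gamma0 N) →+ A) × (Additive (Gamma0 N) →+ A) →+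
    (Additive (Gamma0 (N * q)) →+ A) :=
  (res₁ N q A).coprod (res₂ N q A)

@[simp] theorem alpha_apply (φ : (Additive (Gamma0 N) →+ A) × (Additive (Gamma0 N) →+ A)) :
    alpha N q A φ = res₁ N q A φ.1 + res₂ N q A φ.2 := rfl

variable [NeZero N]

/-- Transfer of additive characters along the inclusion `Γ₀(N q) ≤ Γ₀(N)`. -/
noncomputable def cor₁ : (Additive (Gamma0 (N * q)) →+ A) →+ (Additive (Gamma0 N) →+ A) :=
  corAlong (incl N q) (incl_injective N q) A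

/-- Transfer of additive characters along `degConj`. -/
noncomputable def cor₂ : (Additive (Gamma0 (N * q)) →+ A) →+ (Additive (Gamma0 N) →+ A) :=
  corAlong (degConj N q) (degConj_injective N q) A

/-- `β ψ = (cor₁ ψ, cor₂ ψ)`. -/
noncomputable def beta : (Additive (Gamma0 (N * q)) →+ A) →+
    (Additive (Gamma0 N) →+ A) × (Additive (Gamma0 N) →+ A) :=
  (cor₁ N q A).prod (cor₂ N q A)

@[simp] theorem beta_apply (ψ : Additive (Gamma0 (N * q)) →+ A) :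
    beta N q A ψ = (cor₁ N q A ψ, cor₂ N q A ψ) := rfl

end Chars

end Fermat.Agent.S41
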